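import Fermat.Agent.Lib.Cheb.Spec
import Fermat.Agent.S37.H99.FrobAt

/-!
# CHEB piece F6: `Spec.BridgeDivisionStatement` (helper943)

From the finite-level Frobenius density statement (`Spec.FrobFiniteStatement`, about abstract
Galois number fields) to the Prelude-level statement about `Gal(ℚ̄/ℚ)`, valuation subrings of
`ℚ̄` and `ValuationSubring.IsFrobeniusAt`.

Proof: `L₀` := normal closure of `E` in `ℚ̄`; apply the finite-level statement to `L₀` and
`σ|L₀`; take a valuation subring `A` of `ℚ̄` whose maximal ideal contains `P`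
(`Ideal.image_subset_nonunits_valuationSubring`); any Frobenius `τ` at `A`
(`Fermat.Agent.S37.H99.exists_isFrobeniusAt`, landed) restricts to an arithmetic Frobenius at
`P`, which is unique because the inertia group at `P` is trivial; elements of the inertia group
at `A` restrict to the inertia group at `P`, hence act trivially on `L₀ ⊇ E`.
-/

set_option autoImplicit false
set_option linter.unusedSectionVars false
set_option linter.style.haveILetI false

open NumberField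
open scoped Pointwise

namespace Fermat.Agent.Lib.Cheb.H943

open Fermat.Agent.Lib.Cheb.Spec

section Bridge

variable (L₀ : IntermediateField ℚ Qb)

/-- The embedding of the ring of integers of `L₀ ⊆ ℚ̄` into `ℚ̄`. -/
noncomputable def emb : 𝓞 L₀ →+* Qb :=
  (algebraMap L₀ Qb).comp (algebraMap (𝓞 L₀) L₀)

lemma emb_apply (x : 𝓞 L₀) : emb L₀ x = ((x : L₀) : Qb) := rfl

lemma emb_injective : Function.Injective (emb L₀) := by
  intro x y h
  have h1 : ((x : L₀) : Qb) = ((y : L₀) : Qb) := h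
  exact RingOfIntegers.ext (Subtype.ext h1)

lemma emb_isIntegral (x : 𝓞 L₀) : IsIntegral ℤ (emb L₀ x) := by
  have h1 : IsIntegral ℤ (x : L₀) := RingOfIntegers.isIntegral_coe x
  exact h1.map (IsScalarTower.toAlgHom ℤ L₀ Qb)

lemma emb_mem (A : ValuationSubring Qb) (x : 𝓞 L₀) : emb L₀ x ∈ A :=
  Fermat.Agent.S54.isIntegral_mem_valuationSubring A (emb_isIntegral L₀ x)

/-- The embedding into the ring of all algebraic integers. -/
noncomputable def embInt : 𝓞 L₀ →+* integralClosure ℤ Qb :=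
  RingHom.codRestrict (emb L₀) (integralClosure ℤ Qb) (emb_isIntegral L₀)

lemma coe_embInt (x : 𝓞 L₀) : ((embInt L₀ x : integralClosure ℤ Qb) : Qb) = emb L₀ x := rfl

/-- Lemma 1: a valuation subring of `ℚ̄` whose maximal ideal contains a given proper ideal
of `𝓞 L₀`. -/
lemma exists_valuationSubring_over (P : Ideal (𝓞 L₀)) (hP : P ≠ ⊤) :
    ∃ A : ValuationSubring Qb, ∀ x ∈ P, emb L₀ x ∈ A.nonunits := by
  let A₀ : Subring Qb := (emb L₀).range
  let I : Ideal A₀ := P.map (emb L₀).rangeRestrict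
  have hI : I ≠ ⊤ := by
    intro h
    have h1 : (1 : A₀) ∈ I := by rw [h]; trivial
    rw [Ideal.mem_map_iff_of_surjective _ (emb L₀).rangeRestrict_surjective] at h1
    obtain ⟨x, hx, hx1⟩ := h1
    have h2 : emb L₀ x = emb L₀ 1 := by
      have := congrArg Subtype.val hx1
      simpa using this
    have h3 : x = 1 := emb_injective L₀ h2
    exact hP ((Ideal.eq_top_iff_one P).mpr (h3 ▸ hx))
  obtain ⟨A, -, hA⟩ := Ideal.image_subset_nonunits_valuationSubring I hI
  refine ⟨A, fun x hx => hA ⟨(emb L₀).rangeRestrict x, Ideal.mem_map_of_mem _ hx, rfl⟩⟩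

/-- Lemma 2: contraction of the maximal ideal of `A` to `𝓞 L₀` is `P`. -/
lemma mem_of_emb_mem_nonunits {P : Ideal (𝓞 L₀)} (hP : P.IsMaximal)
    {A : ValuationSubring Qb} (hA : ∀ x ∈ P, emb L₀ x ∈ A.nonunits)
    {x : 𝓞 L₀} (hx : emb L₀ x ∈ A.nonunits) : x ∈ P := by
  let J : Ideal (𝓞 L₀) := Ideal.comap (embInt L₀) (Fermat.Agent.S54.primeBelow A)
  have hJ : ∀ y, y ∈ J ↔ emb L₀ y ∈ A.nonunits := fun y => Iff.rfl
  have hPJ : P ≤ J := fun y hy => (hJ y).mpr (hA y hy)
  have hJtop : J ≠ ⊤ := by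
    intro h
    have h1 : (1 : 𝓞 L₀) ∈ J := by rw [h]; trivial
    rw [hJ, map_one, ValuationSubring.mem_nonunits_iff] at h1
    simp at h1
  have := hP.eq_of_le hJtop hPJ
  rw [this]
  exact (hJ x).mpr hx

lemma under_eq_span {p : ℕ} (hp : p.Prime) {P : Ideal (𝓞 L₀)} (hP : P.IsPrime)
    (hpP : (p : 𝓞 L₀) ∈ P) : P.under ℤ = Ideal.span {(p : ℤ)} := by
  have hmax : (Ideal.span {(p : ℤ)}).IsMaximal :=
    PrincipalIdealRing.isMaximal_of_irreducible (Nat.prime_iff_prime_int.mp hp).irreducible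
  have hle : Ideal.span {(p : ℤ)} ≤ P.under ℤ := by
    rw [Ideal.span_le, Set.singleton_subset_iff]
    show algebraMap ℤ (𝓞 L₀) (p : ℤ) ∈ P
    simpa using hpP
  exact (hmax.eq_of_le (Ideal.IsPrime.under ℤ P).ne_top hle).symm

lemma card_quot_under {p : ℕ} (hp : p.Prime) {P : Ideal (𝓞 L₀)} (hP : P.IsPrime)
    (hpP : (p : 𝓞 L₀) ∈ P) : Nat.card (ℤ ⧸ P.under ℤ) = p := by
  rw [under_eq_span L₀ hp hP hpP]
  exact Int.card_ideal_quot p

variable [Normal ℚ L₀]

lemma emb_restrict_smul (τ : GQ) (x : 𝓞 L₀) :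
    emb L₀ ((AlgEquiv.restrictNormalHom L₀ τ) • x) = τ (emb L₀ x) := by
  rw [emb_apply, emb_apply]
  exact AlgEquiv.restrictNormal_commutes τ L₀ (x : L₀)

/-- Lemma 3: a Frobenius at `A` restricts to an arithmetic Frobenius at `P`. -/
lemma isArithFrobAt_restrict {p : ℕ} (hp : p.Prime) {P : Ideal (𝓞 L₀)} (hP : P.IsMaximal)
    (hpP : (p : 𝓞 L₀) ∈ P) {A : ValuationSubring Qb} (hA : ∀ x ∈ P, emb L₀ x ∈ A.nonunits)
    {τ : GQ} (hτ : A.IsFrobeniusAt τ p) :
    IsArithFrobAt ℤ (AlgEquiv.restrictNormalHom L₀ τ) P := by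
  intro x
  rw [card_quot_under L₀ hp hP.isPrime hpP]
  apply mem_of_emb_mem_nonunits L₀ hP hA
  have h0 : emb L₀ ((MulSemiringAction.toAlgHom ℤ (𝓞 L₀) (AlgEquiv.restrictNormalHom L₀ τ)) x
      - x ^ p) = τ (emb L₀ x) - (emb L₀ x) ^ p := by
    rw [map_sub, map_pow]
    congr 1
    exact emb_restrict_smul L₀ τ x
  rw [h0]
  obtain ⟨hτd, hτF⟩ := hτ
  have h1 := hτF (IsLocalRing.residue A ⟨emb L₀ x, emb_mem L₀ A x⟩)
  rw [← IsLocalRing.ResidueField.residue_smul, ← map_pow, ← sub_eq_zero, ← map_sub,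
      IsLocalRing.residue_eq_zero_iff, ← ValuationSubring.coe_mem_nonunits_iff] at h1
  exact h1

/-- Lemma 4: an element of the inertia group at `A` restricts to an element acting trivially
modulo `P`. -/
lemma inertia_restrict {P : Ideal (𝓞 L₀)} (hP : P.IsMaximal)
    {A : ValuationSubring Qb} (hA : ∀ x ∈ P, emb L₀ x ∈ A.nonunits)
    {ι : GQ} (hι : ι ∈ A.inertiaSubgroupIn ℚ) (x : 𝓞 L₀) :
    (AlgEquiv.restrictNormalHom L₀ ι) • x - x ∈ P := by
  apply mem_of_emb_mem_nonunits L₀ hP hA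
  rw [map_sub, emb_restrict_smul]
  obtain ⟨ι', hι', rfl⟩ := hι
  have h1 : ι' • (IsLocalRing.residue A ⟨emb L₀ x, emb_mem L₀ A x⟩)
      = IsLocalRing.residue A ⟨emb L₀ x, emb_mem L₀ A x⟩ := by
    have := congrArg (fun f => f (IsLocalRing.residue A ⟨emb L₀ x, emb_mem L₀ A x⟩))
      (MonoidHom.mem_ker.mp hι')
    simpa using this
  rw [← IsLocalRing.ResidueField.residue_smul, ← sub_eq_zero, ← map_sub,
      IsLocalRing.residue_eq_zero_iff, ← ValuationSubring.coe_mem_nonunits_iff] at h1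
  exact h1

end Bridge

/-- Every finite extension of `ℚ` inside `ℚ̄` is contained in a finite Galois one. -/
lemma exists_galois_ge (E : IntermediateField ℚ Qb) [FiniteDimensional ℚ E] :
    ∃ L₀ : IntermediateField ℚ Qb, E ≤ L₀ ∧ FiniteDimensional ℚ L₀ ∧ Normal ℚ L₀ := by
  haveI : Algebra.IsAlgebraic ℚ Qb := AlgebraicClosure.isAlgebraic ℚ
  haveI : IsAlgClosure ℚ Qb := ⟨inferInstance, inferInstance⟩
  haveI : Normal ℚ Qb := IsAlgClosure.normal ℚ Qb
  refine ⟨IntermediateField.normalClosure ℚ E Qb, ?_, ?_, ?_⟩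
  · exact IntermediateField.le_normalClosure E
  · exact normalClosure.is_finiteDimensional ℚ E Qb
  · exact normalClosure.normal ℚ E Qb

lemma exists_pow_of_zpowers_eq {G : Type*} [Group G] [Finite G] {a b : G}
    (h : Subgroup.zpowers a = Subgroup.zpowers b) : ∃ k : ℕ, a = b ^ k := by
  have h1 : a ∈ Subgroup.zpowers b := h ▸ Subgroup.mem_zpowers a
  rw [← mem_powers_iff_mem_zpowers, Submonoid.mem_powers_iff] at h1
  obtain ⟨k, hk⟩ := h1
  exact ⟨k, hk.symm⟩

/-- **Piece F6** of row CHEB: `Spec.BridgeDivisionStatement`. -/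
theorem bridgeDivisionStatement : Spec.BridgeDivisionStatement := by
  intro hFF E hE σ S
  haveI := hE
  obtain ⟨L₀, hEL, hfin, hnorm⟩ := exists_galois_ge E
  haveI := hfin
  haveI := hnorm
  haveI : IsGalois ℚ L₀ := ⟨⟩
  haveI : NumberField L₀ := { to_charZero := inferInstance, to_finiteDimensional := hfin }
  obtain ⟨p, P, τ₀, hp, hpS, hP, hpP, hI, hτ₀, hz⟩ :=
    hFF L₀ (AlgEquiv.restrictNormalHom L₀ σ) S
  have hPne : P ≠ ⊥ := by
    rintro rfl
    rw [Ideal.mem_bot] at hpP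
    exact hp.ne_zero (by exact_mod_cast hpP)
  have hPmax : P.IsMaximal := Ideal.IsPrime.isMaximal hP hPne
  obtain ⟨A, hA⟩ := exists_valuationSubring_over L₀ P hP.ne_top
  have hAp : A.LiesOverPrime p := by
    have := hA _ hpP
    rw [emb_apply] at this
    show (p : Qb) ∈ A.nonunits
    simpa using this
  obtain ⟨τ, hτ⟩ := Fermat.Agent.S37.H99.exists_isFrobeniusAt p hp A hAp
  -- the restriction of `τ` is the Frobenius `τ₀`
  have hτ₁ : IsArithFrobAt ℤ (AlgEquiv.restrictNormalHom L₀ τ) P :=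
    isArithFrobAt_restrict L₀ hp hPmax hpP hA hτ
  have hττ₀ : AlgEquiv.restrictNormalHom L₀ τ = τ₀ := by
    have h1 : (AlgEquiv.restrictNormalHom L₀ τ) * τ₀⁻¹ = 1 := by
      apply hI
      intro x
      exact IsArithFrobAt.mul_inv_mem_inertia hτ₁ hτ₀ x
    exact mul_inv_eq_one.mp h1
  obtain ⟨k, hk⟩ := exists_pow_of_zpowers_eq hz
  obtain ⟨j, hj⟩ := exists_pow_of_zpowers_eq hz.symm
  have hcoe : ∀ (g : GQ) (x : Qb) (hx : x ∈ L₀),
      (((AlgEquiv.restrictNormalHom L₀ g) ⟨x, hx⟩ : L₀) : Qb) = g x := fun g x hx =>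
    AlgEquiv.restrictNormal_commutes g L₀ ⟨x, hx⟩
  refine ⟨p, A, τ, k, j, hp, hpS, hAp, hτ, ?_, ?_, ?_⟩
  · intro ι hι x hx
    have h1 : AlgEquiv.restrictNormalHom L₀ ι = 1 := by
      apply hI
      intro y
      exact inertia_restrict L₀ hPmax hA hι y
    have h2 := hcoe ι x (hEL hx)
    rw [h1] at h2
    exact h2.symm
  · intro x hx
    rw [← hcoe τ x (hEL hx), ← hcoe (σ ^ k) x (hEL hx), hττ₀, hk, map_pow]
  · intro x hx
    rw [← hcoe (τ ^ j) x (hEL hx), ← hcoe σ x (hEL hx), map_pow, hττ₀, ← hj]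

end Fermat.Agent.Lib.Cheb.H943
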