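import Fermat.Agent.Lib.Cheb.Spec

/-!
# CHEB piece B0: `Spec.PrimeCountBoundStatement` (helper943)

For every number field `F` and every `n : ℕ` there are at most `[F:ℚ]` prime ideals of `𝓞 F` of
absolute norm `n`: they all lie over the same prime of `ℤ` (`absNorm 𝔮 = absNorm (𝔮 ∩ ℤ) ^ f`),
and `∑ e f = [F:ℚ]` (`Ideal.sum_ramification_inertia_eq_finrank`).
-/

set_option autoImplicit false
set_option linter.unusedSectionVars false
set_option linter.style.haveILetI false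

open NumberField
open scoped Pointwise

namespace Fermat.Agent.Lib.Cheb.H943

variable {F : Type} [Field F] [NumberField F]

/-- The absolute norm of the prime of `ℤ` below a prime `𝔮` is `0` or a prime number. -/
lemma absNorm_under_eq_zero_or_prime (𝔮 : Ideal (𝓞 F)) [h𝔮 : 𝔮.IsPrime] :
    Ideal.absNorm (𝔮.under ℤ) = 0 ∨ (Ideal.absNorm (𝔮.under ℤ)).Prime := by
  by_cases h0 : 𝔮.under ℤ = ⊥
  · left; rw [h0]; simp
  · right
    have hprime : (𝔮.under ℤ).IsPrime := inferInstance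
    have hspan := Int.ideal_span_absNorm_eq_self (𝔮.under ℤ)
    rw [← hspan] at hprime h0
    have hne : ((Ideal.absNorm (𝔮.under ℤ) : ℕ) : ℤ) ≠ 0 := by
      intro h; apply h0; rw [h]; simp
    rw [Ideal.span_singleton_prime hne] at hprime
    exact Nat.prime_iff_prime_int.mpr hprime

/-- Two primes of `𝓞 F` with the same absolute norm lie over the same prime of `ℤ`. -/
lemma under_eq_of_absNorm_eq (𝔮 𝔮' : Ideal (𝓞 F)) [h𝔮 : 𝔮.IsPrime] [h𝔮' : 𝔮'.IsPrime]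
    (h : Ideal.absNorm 𝔮 = Ideal.absNorm 𝔮') : 𝔮.under ℤ = 𝔮'.under ℤ := by
  have e1 := Ideal.absNorm_pow_inertiaDeg (𝔮.under ℤ) 𝔮
  have e2 := Ideal.absNorm_pow_inertiaDeg (𝔮'.under ℤ) 𝔮'
  have f1 : 0 < 𝔮.inertiaDeg ℤ := Ideal.inertiaDeg_pos 𝔮 ℤ
  have f2 : 0 < 𝔮'.inertiaDeg ℤ := Ideal.inertiaDeg_pos 𝔮' ℤ
  have key : Ideal.absNorm (𝔮.under ℤ) = Ideal.absNorm (𝔮'.under ℤ) := by
    have e3 : Ideal.absNorm (𝔮.under ℤ) ^ 𝔮.inertiaDeg ℤ
        = Ideal.absNorm (𝔮'.under ℤ) ^ 𝔮'.inertiaDeg ℤ := by rw [e1, e2, h]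
    rcases absNorm_under_eq_zero_or_prime 𝔮 with ha | ha
    · rw [ha, zero_pow f1.ne'] at e3
      rw [ha]
      exact (pow_eq_zero_iff f2.ne').mp e3.symm |>.symm
    · rcases absNorm_under_eq_zero_or_prime 𝔮' with ha' | ha'
      · rw [ha', zero_pow f2.ne'] at e3
        rw [ha']
        exact (pow_eq_zero_iff f1.ne').mp e3
      · have hdvd : Ideal.absNorm (𝔮.under ℤ) ∣ Ideal.absNorm (𝔮'.under ℤ) ^ 𝔮'.inertiaDeg ℤ := by
          rw [← e3]; exact dvd_pow_self _ f1.ne'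
        exact (Nat.prime_dvd_prime_iff_eq ha ha').mp (ha.dvd_of_dvd_pow hdvd)
  rw [← Int.ideal_span_absNorm_eq_self (𝔮.under ℤ), ← Int.ideal_span_absNorm_eq_self (𝔮'.under ℤ),
    key]

/-- The number of primes over a prime of `ℤ` is at most the degree. -/
lemma card_primesOver_le (p : Ideal ℤ) [p.IsPrime] :
    Nat.card (p.primesOver (𝓞 F)) ≤ Module.finrank ℚ F := by
  haveI : Fintype (p.primesOver (𝓞 F)) := (Algebra.QuasiFinite.finite_primesOver p).fintype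
  rw [← RingOfIntegers.rank F, ← Ideal.sum_ramification_inertia_eq_finrank p (𝓞 F),
    Nat.card_eq_fintype_card, ← Finset.card_univ, Finset.card_eq_sum_ones]
  refine Finset.sum_le_sum fun q _ => ?_
  haveI := q.2.1
  exact Right.one_le_mul (Ideal.ramificationIdx_pos q.1 ℤ) (Ideal.inertiaDeg_pos q.1 ℤ)

/-- **Piece B0** of row CHEB: `Spec.PrimeCountBoundStatement`. -/
theorem primeCountBoundStatement : Spec.PrimeCountBoundStatement := by
  intro F _ _ n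
  unfold Spec.primeCount
  by_cases hne : Nonempty {𝔮 : Ideal (𝓞 F) // 𝔮.IsPrime ∧ Ideal.absNorm 𝔮 = n}
  · obtain ⟨⟨𝔮₀, h𝔮₀, hn₀⟩⟩ := hne
    haveI := h𝔮₀
    haveI : Finite ((𝔮₀.under ℤ).primesOver (𝓞 F)) := Algebra.QuasiFinite.finite_primesOver _
    refine le_trans (Nat.card_le_card_of_injective
      (fun 𝔮 : {𝔮 : Ideal (𝓞 F) // 𝔮.IsPrime ∧ Ideal.absNorm 𝔮 = n} =>
        (⟨𝔮.1, 𝔮.2.1, ⟨by
          haveI := 𝔮.2.1
          exact under_eq_of_absNorm_eq 𝔮₀ 𝔮.1 (hn₀.trans 𝔮.2.2.symm)⟩⟩ :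
          (𝔮₀.under ℤ).primesOver (𝓞 F))) ?_) (card_primesOver_le (𝔮₀.under ℤ))
    intro a b hab
    have := congrArg Subtype.val hab
    exact Subtype.ext this
  · rw [not_nonempty_iff] at hne
    rw [Nat.card_of_isEmpty]
    exact Nat.zero_le _

end Fermat.Agent.Lib.Cheb.H943
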