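import Fermat.Agent.Lib.Cheb.H343.PrimeSumZ
import Fermat.Agent.Lib.Cheb.H764.Count
import Fermat.Agent.Lib.Cheb.H993.Glue
import Fermat.Agent.Lib.Cheb.H943.Frob
import Fermat.Agent.Lib.Cheb.H943.PrimeCountBound
import Fermat.Agent.Lib.Cheb.H943.Bridge

/-!
# CHEB Tier 1 assembled (helper943): the qualitative Frobenius density theorem

`frobFiniteStatement : Spec.FrobFiniteStatement` (finite level) and
`frobeniusDivisionStatement : Spec.FrobeniusDivisionStatement` (Prelude level, `Gal(ℚ̄/ℚ)`),
unconditionally, from the landed pieces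

* Z  = `H343.primeSum`                (helper343),
* B0 = `H943.primeCountBoundStatement`,
* A  = `H764.count`                   (helper764),
* D  = `H943.frobStatement`,
* M  = `H993.frobFinite`              (helper993),
* F6 = `H943.bridgeDivisionStatement`.

Also a client-friendly unfolded form `exists_frobenius_division`.
-/

set_option autoImplicit false

namespace Fermat.Agent.Lib.Cheb.H943

/-- Finite-level qualitative Frobenius density theorem. -/
theorem frobFiniteStatement : Spec.FrobFiniteStatement :=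
  H993.frobFinite H343.primeSum primeCountBoundStatement H764.count frobStatement

/-- **FROB**, Prelude level. -/
theorem frobeniusDivisionStatement : Spec.FrobeniusDivisionStatement :=
  bridgeDivisionStatement frobFiniteStatement

/-- **FROB**, unfolded for clients: on every finite extension `E` of `ℚ` inside `ℚ̄`, every
`σ ∈ Gal(ℚ̄/ℚ)` and some Frobenius element `τ` (at a valuation subring `A` over a prime
`ℓ ∉ S`, with inertia at `A` acting trivially on `E`) are powers of each other on `E`. -/
theorem exists_frobenius_division (E : IntermediateField ℚ (AlgebraicClosure ℚ))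
    [FiniteDimensional ℚ E] (σ : AlgebraicClosure ℚ ≃ₐ[ℚ] AlgebraicClosure ℚ) (S : Finset ℕ) :
    ∃ (ℓ : ℕ) (A : ValuationSubring (AlgebraicClosure ℚ))
      (τ : AlgebraicClosure ℚ ≃ₐ[ℚ] AlgebraicClosure ℚ) (k j : ℕ),
      ℓ.Prime ∧ ℓ ∉ S ∧ A.LiesOverPrime ℓ ∧ A.IsFrobeniusAt τ ℓ ∧
      (∀ ι ∈ A.inertiaSubgroupIn ℚ, ∀ x ∈ E, ι x = x) ∧
      (∀ x ∈ E, τ x = (σ ^ k) x) ∧ (∀ x ∈ E, (τ ^ j) x = σ x) :=
  frobeniusDivisionStatement E inferInstance σ S

end Fermat.Agent.Lib.Cheb.H943
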